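import Mathlib
import Fermat.Agent.Root.SummaryNeukirchUchida

/-!
# Automorphisms of a fixed field

If `ρ : Gal(ℚ̄/ℚ) → Γ` is surjective with open kernel and `H ≤ Γ`, the automorphism group of the
fixed field of `ρ⁻¹(H)` is the quotient of the normaliser of `H` by `H`, and its degree is the index
of `H`.
-/

set_option autoImplicit false

noncomputable section

namespace Fermat.Agent.FriedKollar

open FA.GalCoh Neukirch

local notation "Qb" => AlgebraicClosure ℚ

/-- The fixed field of `ρ⁻¹(H)` has the normaliser quotient as its automorphism group. -/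
theorem exists_field_of_normalizer {Γ G : Type*} [Group Γ] [Group G] (ρ : GQ →* Γ)
    (hρ : Function.Surjective ρ) (hopen : IsOpen (ρ.ker : Set GQ)) (H : Subgroup Γ)
    (π : Subgroup.normalizer (H : Set Γ) →* G) (hπ : Function.Surjective π)
    (hker : ∀ x, π x = 1 ↔ (x : Γ) ∈ H) :
    ∃ F : IntermediateField ℚ Qb, FiniteDimensional ℚ F ∧ Module.finrank ℚ F = H.index ∧
      Nonempty ((F ≃ₐ[ℚ] F) ≃* G) := by
  have : IsGalois ℚ Qb := FA.Local.isGalois_qbar
  set U : Subgroup GQ := H.comap ρ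
  have hU : IsOpen (U : Set GQ) :=
    Subgroup.isOpen_mono (fun σ hσ => by
      show ρ σ ∈ H
      rw [MonoidHom.mem_ker.1 hσ]
      exact one_mem H) hopen
  set F : IntermediateField ℚ Qb := IntermediateField.fixedField U
  have hFU : F.fixingSubgroup = U :=
    InfiniteGalois.fixingSubgroup_fixedField ⟨U, U.isClosed_of_isOpen hU⟩
  have : FiniteDimensional ℚ F := (InfiniteGalois.isOpen_iff_finite F).1 (by rw [hFU]; exact hU)
  refine ⟨F, inferInstance, ?_, ?_⟩
  · rw [IntermediateField.finrank_eq_fixingSubgroup_index, hFU]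
    exact Subgroup.index_comap_of_surjective H hρ
  -- the normaliser acts on the field
  set N : Subgroup GQ := (Subgroup.normalizer (H : Set Γ)).comap ρ
  have hmem : ∀ (σ : N) (x : F), (σ : GQ) x ∈ F := fun σ x => by
    rintro ⟨u, hu⟩
    have h : (σ : GQ)⁻¹ * u * σ ∈ F.fixingSubgroup := by
      rw [hFU]
      show ρ _ ∈ H
      rw [map_mul, map_mul, map_inv]
      exact (Subgroup.mem_normalizer_iff''.1 σ.2 _).1 hu
    have h1 := (IntermediateField.mem_fixingSubgroup_iff _ _).1 h x x.2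
    show u ((σ : GQ) x) = (σ : GQ) x
    conv_rhs => rw [← h1]
    rw [← AlgEquiv.mul_apply (σ : GQ) ((σ : GQ)⁻¹ * u * σ), ← AlgEquiv.mul_apply u, ← mul_assoc,
      ← mul_assoc, mul_inv_cancel, one_mul]
  let res : N →* (F →ₐ[ℚ] F) :=
    { toFun := fun σ => (((σ : GQ) : Qb →ₐ[ℚ] Qb).comp F.val).codRestrict F.toSubalgebra (hmem σ)
      map_one' := rfl
      map_mul' := fun _ _ => rfl }
  let θ : N →* (F ≃ₐ[ℚ] F) :=
    (Algebra.IsAlgebraic.algEquivEquivAlgHom ℚ F).symm.toMonoidHom.comp res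
  have hθ : ∀ (σ : N) (x : F), (θ σ x : Qb) = (σ : GQ) x := fun σ x => rfl
  have hθsurj : Function.Surjective θ := fun f => by
    obtain ⟨g, hmap, hg⟩ := exists_lift_map F F f
    have hgN : g ∈ N := Subgroup.mem_normalizer_iff.2 fun h => by
      obtain ⟨y, rfl⟩ := hρ h
      have h1 := mem_fixingSubgroup_conj_iff hmap y
      rw [hFU] at h1
      simpa [U] using h1
    exact ⟨⟨g, hgN⟩, AlgEquiv.ext fun x => Subtype.ext ((hθ _ x).trans (hg x))⟩
  -- and is surjective onto `G` with the same kernel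
  let ψ : N →* G := π.comp ((ρ.comp N.subtype).codRestrict _ fun σ => σ.2)
  have hψsurj : Function.Surjective ψ := fun g => by
    obtain ⟨⟨x, hx⟩, rfl⟩ := hπ g
    obtain ⟨σ, rfl⟩ := hρ x
    exact ⟨⟨σ, hx⟩, rfl⟩
  have hkers : θ.ker = ψ.ker := by
    ext σ
    rw [MonoidHom.mem_ker, MonoidHom.mem_ker]
    refine Iff.trans ?_ (hker _).symm
    show θ σ = 1 ↔ (σ : GQ) ∈ U
    rw [← hFU, IntermediateField.mem_fixingSubgroup_iff]
    exact ⟨fun h x hx => (hθ σ ⟨x, hx⟩).symm.trans
      (congrArg Subtype.val (AlgEquiv.congr_fun h ⟨x, hx⟩)),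
      fun h => AlgEquiv.ext fun x => Subtype.ext ((hθ σ x).trans (h x x.2))⟩
  exact ⟨((QuotientGroup.quotientKerEquivOfSurjective θ hθsurj).symm.trans
    (QuotientGroup.quotientMulEquivOfEq hkers)).trans
      (QuotientGroup.quotientKerEquivOfSurjective ψ hψsurj)⟩

end Fermat.Agent.FriedKollar
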