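import Mathlib
import Fermat.Agent.SemidirectGalois.Realisable

/-!
# A realised group with a prescribed normaliser quotient

For a finite group `G ≤ S = S_n` let `T = S/G` and let `ℤˣ × S` act on `M = (ℤ/p)^T`, the sign by
powering and `S` by permuting the coordinates. In `Γ = M ⋊ (ℤˣ × S)` the subgroup `H` of elements
with trivial permutation and vector supported at the coset of `G` has as normaliser the elements
with such a vector and permutation in `G`, so that the quotient is `G`. The group `Γ` is realised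
over `ℚ` and the index of `H` is at least `p`.
-/

namespace Fermat.Agent.FriedKollar

open SemidirectGalois

section

variable (p : ℕ) (S : Type) [Group S] (T : Type) [MulAction S T]

/-- The action of `ℤˣ × S` on functions `T → ℤ/p`: powering and permutation. -/
def signPermAut : ℤˣ × S →* MulAut (T → Multiplicative (ZMod p)) :=
  MonoidHom.mk'
    (fun x =>
      { toFun := fun F t => F (x.2⁻¹ • t) ^ ((x.1 : ℤˣ) : ℤ)
        invFun := fun F t => F (x.2 • t) ^ ((x.1 : ℤˣ) : ℤ)
        left_inv := fun F => funext fun t => by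
          simp [← zpow_mul, Int.units_coe_mul_self]
        right_inv := fun F => funext fun t => by
          simp [← zpow_mul, Int.units_coe_mul_self]
        map_mul' := fun F F' => funext fun t => by simp [mul_zpow] })
    fun x y => MulEquiv.ext fun F => funext fun t => by
      show F ((x * y).2⁻¹ • t) ^ (((x * y).1 : ℤˣ) : ℤ)
        = (F (y.2⁻¹ • x.2⁻¹ • t) ^ ((y.1 : ℤˣ) : ℤ)) ^ ((x.1 : ℤˣ) : ℤ)
      rw [← zpow_mul, Prod.fst_mul, Units.val_mul, mul_comm ((y.1 : ℤˣ) : ℤ), Prod.snd_mul,
        mul_inv_rev, mul_smul]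

theorem signPermAut_apply (x : ℤˣ × S) (F : T → Multiplicative (ZMod p)) (t : T) :
    signPermAut p S T x F t = F (x.2⁻¹ • t) ^ ((x.1 : ℤˣ) : ℤ) :=
  rfl

theorem signPermAut_symm_apply (x : ℤˣ × S) (F : T → Multiplicative (ZMod p)) (t : T) :
    (signPermAut p S T x).symm F t = F (x.2 • t) ^ ((x.1 : ℤˣ) : ℤ) :=
  rfl

/-- The group `(T → ℤ/p) ⋊ (ℤˣ × S)`. -/
abbrev SignPermGroup := (T → Multiplicative (ZMod p)) ⋊[signPermAut p S T] (ℤˣ × S)

variable {p S T}

/-- The permutation part. -/
def permHom : SignPermGroup p S T →* S :=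
  (MonoidHom.snd ℤˣ S).comp SemidirectProduct.rightHom

theorem permHom_apply (γ : SignPermGroup p S T) : permHom γ = γ.right.2 := rfl

/-- Elements whose vector is supported at `t₀` and whose permutation fixes `t₀`. -/
def pointNormalizer (t₀ : T) : Subgroup (SignPermGroup p S T) where
  carrier := {γ | (∀ t, t ≠ t₀ → γ.left t = 1) ∧ γ.right.2 • t₀ = t₀}
  one_mem' := ⟨fun _ _ => rfl, one_smul _ _⟩
  mul_mem' {a b} ha hb := by
    refine ⟨fun t ht => ?_, ?_⟩
    · have h : a.right.2⁻¹ • t ≠ t₀ := fun h => ht (by rw [← ha.2, ← h, smul_inv_smul])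
      show a.left t * b.left (a.right.2⁻¹ • t) ^ ((a.right.1 : ℤˣ) : ℤ) = 1
      rw [ha.1 t ht, hb.1 _ h, one_zpow, mul_one]
    · show (a.right.2 * b.right.2) • t₀ = t₀
      rw [mul_smul, hb.2, ha.2]
  inv_mem' {a} ha := by
    refine ⟨fun t ht => ?_, ?_⟩
    · have h : a.right.2⁻¹⁻¹ • t ≠ t₀ := fun h => ht (by
        rw [inv_inv] at h
        exact smul_left_cancel _ (h.trans ha.2.symm))
      show (a.left (a.right.2⁻¹⁻¹ • t))⁻¹ ^ ((a.right.1⁻¹ : ℤˣ) : ℤ) = 1
      rw [ha.1 _ h, inv_one, one_zpow]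
    · show a.right.2⁻¹ • t₀ = t₀
      rw [inv_smul_eq_iff, ha.2]

/-- Elements whose vector is supported at `t₀` and whose permutation is trivial. -/
def pointGroup (t₀ : T) : Subgroup (SignPermGroup p S T) :=
  pointNormalizer t₀ ⊓ permHom.ker

theorem mem_pointGroup_of_right {t₀ : T} {γ : SignPermGroup p S T}
    (hl : ∀ t, t ≠ t₀ → γ.left t = 1) (hr : γ.right.2 = 1) : γ ∈ pointGroup t₀ :=
  ⟨⟨hl, by rw [hr, one_smul]⟩, MonoidHom.mem_ker.2 hr⟩

variable [Fact p.Prime]

/-- For odd `p` the normaliser of the point group is `pointNormalizer`. -/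
theorem normalizer_pointGroup [DecidableEq T] (hp : 2 < p) (t₀ : T) :
    Subgroup.normalizer (SetLike.coe (pointGroup t₀ : Subgroup (SignPermGroup p S T))) =
      pointNormalizer t₀ := by
  refine le_antisymm (fun γ hγ => ?_) fun γ hγ => ?_
  · rw [Subgroup.mem_normalizer_iff] at hγ
    refine ⟨fun t ht => ?_, ?_⟩
    · let c : SignPermGroup p S T := SemidirectProduct.inr ((-1 : ℤˣ), (1 : S))
      have hc : c ∈ pointGroup t₀ := mem_pointGroup_of_right (fun _ _ => rfl) rfl
      have h := ((hγ c).1 hc).1.1 t ht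
      have h2 : γ.left t * γ.left t = 1 := by
        refine Eq.trans ?_ h
        simp [c, signPermAut_apply, signPermAut_symm_apply, smul_smul, ← zpow_mul,
          Int.units_coe_mul_self]
      have hz : (2 : ZMod p) * Multiplicative.toAdd (γ.left t) = 0 := by
        rw [two_mul, ← toAdd_mul, h2, toAdd_one]
      have h20 : (2 : ZMod p) ≠ 0 := fun h0 => by
        have h0' : ((2 : ℕ) : ZMod p) = 0 := by exact_mod_cast h0
        have := Nat.le_of_dvd two_pos ((ZMod.natCast_eq_zero_iff 2 p).1 h0')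
        omega
      exact toAdd_eq_zero.1 ((mul_eq_zero.1 hz).resolve_left h20)
    · let δ : SignPermGroup p S T :=
        SemidirectProduct.inl (Pi.mulSingle t₀ (Multiplicative.ofAdd (1 : ZMod p)))
      have hδ : δ ∈ pointGroup t₀ :=
        mem_pointGroup_of_right (fun t ht => Pi.mulSingle_eq_of_ne ht _) rfl
      by_contra hne
      have h := ((hγ δ).1 hδ).1.1 _ hne
      have h1 : (Multiplicative.ofAdd (1 : ZMod p)) ^ ((γ.right.1 : ℤˣ) : ℤ) = 1 := by
        refine Eq.trans ?_ h
        simp [δ, signPermAut_apply, smul_smul]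
      rcases Int.units_eq_one_or γ.right.1 with h' | h' <;> simp [h'] at h1
  · rw [Subgroup.mem_normalizer_iff]
    intro h
    rw [pointGroup, Subgroup.mem_inf, Subgroup.mem_inf]
    refine and_congr ⟨fun h1 => mul_mem (mul_mem hγ h1) (inv_mem hγ), fun h1 => ?_⟩
      (by simp [MonoidHom.mem_ker])
    have h2 := mul_mem (mul_mem (inv_mem hγ) h1) hγ
    simpa [mul_assoc] using h2

end

/-- **A realised finite group with a subgroup of large index whose normaliser quotient is a given
finite group.** -/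
theorem exists_realised_normalizer (G : Type*) [Group G] [Finite G] (D : ℕ) :
    ∃ (Γ : Type) (_ : Group Γ) (H : Subgroup Γ), RealisedOverRat Γ ∧ D ≤ H.index ∧
      ∃ π : Subgroup.normalizer (H : Set Γ) →* G, Function.Surjective π ∧
        ∀ x, π x = 1 ↔ (x : Γ) ∈ H := by
  classical
  -- `G` as a proper subgroup of a symmetric group
  set n := Nat.card G + 2 with hn
  obtain ⟨e⟩ : Nonempty (G ↪ Fin n) :=
    ⟨(Finite.equivFin G).toEmbedding.trans (Fin.castLEEmb (by omega))⟩
  let ι : G →* Equiv.Perm (Fin n) :=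
    (Equiv.Perm.viaEmbeddingHom e).comp (MulAction.toPermHom G G)
  have hι : Function.Injective ι :=
    (Equiv.Perm.viaEmbeddingHom_injective e).comp MulAction.toPerm_injective
  set R := ι.range
  have hR : 1 < R.index := by
    by_contra hlt
    have h1 : R.index = 1 := by
      have := Subgroup.index_ne_zero_of_finite (H := R)
      omega
    have h2 := R.index_mul_card
    rw [h1, one_mul, Nat.card_congr (MonoidHom.ofInjective hι).toEquiv.symm, Nat.card_perm,
      Nat.card_fin] at h2
    have := Nat.self_le_factorial n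
    omega
  obtain ⟨p, hpD, hp⟩ := Nat.exists_infinite_primes (max D 3)
  have : Fact p.Prime := ⟨hp⟩
  let S := Equiv.Perm (Fin n)
  let T := S ⧸ R
  let t₀ : T := ((1 : S) : S ⧸ R)
  have : Nontrivial T := by
    rw [← Finite.one_lt_card_iff_nontrivial]
    exact hR
  obtain ⟨t₁, ht₁⟩ := exists_ne t₀
  let H : Subgroup (SignPermGroup p S T) := pointGroup t₀
  have : Finite (SignPermGroup p S T) := Finite.of_equiv _ SemidirectProduct.equivProd.symm
  have hnorm := normalizer_pointGroup (p := p) (S := S) (by omega) t₀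
  -- the group is realised
  have hX : RealisedOverRat (ℤˣ × S) :=
    ((realisedOverRat_perm (Fin n)).semidirect (A := ℤˣ) 1).of_surjective
      (MonoidHom.mk' (fun x => (x.left, x.right)) fun a b => by simp)
      fun x => ⟨⟨x.1, x.2⟩, rfl⟩
  have hΓ : RealisedOverRat (SignPermGroup p S T) :=
    hX.semidirect (A := T → Multiplicative (ZMod p)) (signPermAut p S T)
  -- the index is at least `p`
  have hidx : p ≤ H.index := by
    let f : ZMod p → SignPermGroup p S T ⧸ H := fun z =>
      QuotientGroup.mk (SemidirectProduct.inl (Pi.mulSingle t₁ (Multiplicative.ofAdd z)))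
    have hf : Function.Injective f := fun z z' h => by
      have h1 := (QuotientGroup.eq.1 h).1.1 t₁ ht₁
      rw [← map_inv, ← map_mul, SemidirectProduct.left_inl, Pi.mul_apply, Pi.inv_apply,
        Pi.mulSingle_eq_same, Pi.mulSingle_eq_same, inv_mul_eq_one] at h1
      exact Multiplicative.ofAdd.injective h1
    calc p = Nat.card (ZMod p) := (Nat.card_zmod p).symm
      _ ≤ H.index := Nat.card_le_card_of_injective f hf
  -- the quotient of the normaliser
  have hfix : ∀ r : S, r • t₀ = t₀ ↔ r ∈ R := fun r => by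
    show ((r * 1 : S) : S ⧸ R) = ((1 : S) : S ⧸ R) ↔ r ∈ R
    rw [QuotientGroup.eq, mul_one, mul_one, inv_mem_iff]
  let q : Subgroup.normalizer (H : Set (SignPermGroup p S T)) →* R :=
    (permHom.comp (Subgroup.subtype _)).codRestrict R fun x =>
      (hfix _).1 (show (x : SignPermGroup p S T) ∈ pointNormalizer t₀ from hnorm ▸ x.2).2
  refine ⟨SignPermGroup p S T, inferInstance, H, hΓ, le_trans (by omega) hidx,
    (MonoidHom.ofInjective hι).symm.toMonoidHom.comp q, fun g => ?_, fun x => ?_⟩
  · have hmem : (SemidirectProduct.inr ((1 : ℤˣ), ι g) : SignPermGroup p S T) ∈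
        pointNormalizer t₀ := ⟨fun _ _ => rfl, (hfix _).2 ⟨g, rfl⟩⟩
    refine ⟨⟨_, hnorm.symm ▸ hmem⟩, ?_⟩
    exact (MonoidHom.ofInjective hι).symm_apply_eq.2 (Subtype.ext rfl)
  · have hx : (x : SignPermGroup p S T) ∈ pointNormalizer t₀ := hnorm ▸ x.2
    rw [MonoidHom.comp_apply, MulEquiv.coe_toMonoidHom, map_eq_one_iff _ (MulEquiv.injective _),
      Subtype.ext_iff]
    exact ⟨fun h => ⟨hx, MonoidHom.mem_ker.2 h⟩, fun h => MonoidHom.mem_ker.1 h.2⟩

end Fermat.Agent.FriedKollar
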